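/-
Cluster E' (Mazur), S12 side, seat QUOT (helper22): EXACT STATEMENTS of the inputs of the
assembly `Fermat/Agent/E/S12/Quot.lean` (as `Prop`s).

* `VeluQStatement` (V1 + V1Q): the Vélu quotient of a curve over `ℚ` by a finite Galois-stable
  subgroup of odd order descends to `ℚ`, with a Galois-equivariant isogeny whose `x`-map is `veluX`.
* `AtTwoStatement p` (L0): the Vélu model of a Frey-type curve has `v₂ (j) < 0`.
-/
import Mathlib
import Fermat.Agent.E.S12.Leaves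

set_option autoImplicit false

open WeierstrassCurve WeierstrassCurve.Affine WeierstrassCurve.Affine.Point

noncomputable section

namespace Fermat.Agent.ES12

open Fermat.Agent.EV

/-- **(V1 + V1Q)** the Vélu quotient over `ℚ`. -/
def VeluQStatement : Prop :=
  ∀ (W : WeierstrassCurve ℚ), W.Δ ≠ 0 →
    ∀ N₀ : AddSubgroup (W⁄Qb).Point, (N₀ : Set (W⁄Qb).Point).Finite → Odd (Nat.card N₀) →
      (∀ σ : GQ, ∀ P ∈ N₀, σ • P ∈ N₀) →
      ∃ W' : WeierstrassCurve ℚ, W'.Δ ≠ 0 ∧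
        (W'.map (algebraMap ℚ Qb) : WeierstrassCurve Qb) =
          veluCurve (W⁄Qb) (N₀ : Set (W⁄Qb).Point) ∧
        ∃ φ : (W⁄Qb).Point →+ (W'⁄Qb).Point, Function.Surjective φ ∧ φ.ker = N₀ ∧
          (∀ (σ : GQ) (P : (W⁄Qb).Point), φ (σ • P) = σ • φ P) ∧
          ∀ (x y : Qb) (h : (W⁄Qb).Nonsingular x y), (Point.some x y h : (W⁄Qb).Point) ∉ N₀ →
            ∃ (y' : Qb) (h' : (W'⁄Qb).Nonsingular
                (veluX (W⁄Qb) (N₀ : Set (W⁄Qb).Point) (.some x y h)) y'),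
              φ (.some x y h) = .some (veluX (W⁄Qb) (N₀ : Set (W⁄Qb).Point) (.some x y h)) y' h'

/-- **(L0)** the Vélu model of a Frey-type curve (quotient by a Galois-stable subgroup of order
`p`) has `v₂ (j) < 0`. -/
def AtTwoStatement (p : ℕ) : Prop :=
  ∀ A B : ℤ, IsFreyPair A B →
    ∀ N₀ : AddSubgroup (Pts (freyLike A B)), Nat.card N₀ = p →
      (∀ σ : GQ, ∀ P ∈ N₀, σ • P ∈ N₀) →
      ∀ W' : WeierstrassCurve ℚ,
        (W'.map (algebraMap ℚ Qb) : WeierstrassCurve Qb) =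
          veluCurve (CurveQb (freyLike A B)) (N₀ : Set (Pts (freyLike A B))) →
        W'.c₄ ≠ 0 ∧ 3 * padicValRat 2 W'.c₄ < padicValRat 2 W'.Δ

/-- **(V1x, rational form)** the `x`-map of the Vélu isogeny is a rational function of `x`. -/
def VeluXRatStatement : Prop :=
  ∀ (W : Affine Qb), W.Δ ≠ 0 → ∀ N₀ : AddSubgroup W.Point, (N₀ : Set W.Point).Finite →
    Odd (Nat.card N₀) →
    ∃ n d : Polynomial Qb, ∀ (x y : Qb) (h : W.Nonsingular x y),
      (Point.some x y h : W.Point) ∉ N₀ →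
        d.eval x ≠ 0 ∧ veluX W (N₀ : Set W.Point) (.some x y h) = n.eval x / d.eval x

end Fermat.Agent.ES12
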