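/-
Cluster E' (Mazur), S12 side, seat QUOT (helper22), part 1: unipotency of inertia on the torsion
of semistable integral models, and its transfer along isomorphisms over `ℚ`.
-/
import Mathlib
import Fermat.Agent.E.S12.Twist
import Fermat.Agent.E.S12.Unram
import Fermat.Agent.E.S12.StepAux
import Fermat.Agent.Lib.MultRed.Main
import Fermat.Agent.Lib.VarChange.BaseChange

set_option autoImplicit false

open WeierstrassCurve WeierstrassCurve.Affine WeierstrassCurve.Affine.Point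

noncomputable section

namespace Fermat.Agent.ES12

/-- unipotency at `A` on the `k`-torsion of a semistable integral model (`k` an odd prime different
from the residue characteristic). -/
theorem unipAt_of_semistable (W : WeierstrassCurve ℤ) {ℓ k : ℕ} (hℓ : ℓ.Prime) (hk : k.Prime)
    (hk2 : k ≠ 2) (hℓk : ℓ ≠ k) (hss : (ℓ : ℤ) ∣ W.Δ → ¬ (ℓ : ℤ) ∣ W.c₄)
    (A : ValuationSubring Qb) (hA : A.LiesOverPrime ℓ) :
    UnipAt (W.map (Int.castRingHom ℚ)) A k := by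
  have : Fact ℓ.Prime := ⟨hℓ⟩
  have : Fact k.Prime := ⟨hk⟩
  intro σ hσ P hP
  by_cases hΔ : (ℓ : ℤ) ∣ W.Δ
  · refine Fermat.Agent.MultRed.inertia_unipotent W hΔ (hss hΔ) A hA σ hσ
      (hk.odd_of_ne_two hk2) ?_ P hP
    intro hd
    exact hℓk ((Nat.prime_dvd_prime_iff_eq hℓ hk).mp hd)
  · have h1 : σ • P = P := inertia_trivial_of_good W A hℓk hA hΔ σ hσ P hP
    rw [h1, h1]
    abel

/-- for every prime `ℓ` there is an odd prime `k ∉ {ℓ, p}`. -/
theorem exists_odd_prime_ne (ℓ p : ℕ) : ∃ k : ℕ, k.Prime ∧ k ≠ 2 ∧ ℓ ≠ k ∧ k ≠ p := by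
  by_cases h3 : ℓ ≠ 3 ∧ p ≠ 3
  · exact ⟨3, by norm_num, by norm_num, h3.1, fun h => h3.2 h.symm⟩
  by_cases h5 : ℓ ≠ 5 ∧ p ≠ 5
  · exact ⟨5, by norm_num, by norm_num, h5.1, fun h => h5.2 h.symm⟩
  refine ⟨7, by norm_num, by norm_num, ?_, ?_⟩
  · rintro rfl
    simp only [ne_eq, not_and_or, not_not] at h3 h5
    omega
  · rintro rfl
    simp only [ne_eq, not_and_or, not_not] at h3 h5
    omega

/-- the discriminant of a change of variables. -/
theorem vc_Δ_ne_zero {W₁ W₂ : WeierstrassCurve ℚ} (C : VariableChange ℚ) (hC : C • W₁ = W₂)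
    (hΔ : W₁.Δ ≠ 0) : W₂.Δ ≠ 0 := by
  rw [← hC, variableChange_Δ]
  exact mul_ne_zero (pow_ne_zero _ (Units.ne_zero _)) hΔ

/-- transfer of unipotency along an isomorphism over `ℚ`. -/
theorem unipAt_of_vc {W₁ W₂ : WeierstrassCurve ℚ} (C : VariableChange ℚ) (hC : C • W₁ = W₂)
    (hΔ : W₁.Δ ≠ 0) (A : ValuationSubring Qb) {m : ℕ} (hm : 0 < m) (h : UnipAt W₁ A m) :
    UnipAt W₂ A m := by
  refine unipAt_of_hom hΔ (vc_Δ_ne_zero C hC hΔ) (Fermat.Agent.VarChange.vcHomBC (K := Qb) C hC)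
    (fun σ P => ?_) hm (fun P _ hP => ?_) A h
  · rw [algEquiv_smul_def, algEquiv_smul_def]
    exact Fermat.Agent.VarChange.vcHomBC_map C hC σ.toAlgHom P
  · exact Fermat.Agent.VarChange.vcHomBC_injective C hC (hP.trans (_root_.map_zero _).symm)

/-- the converse transfer. -/
theorem unipAt_of_vc' {W₁ W₂ : WeierstrassCurve ℚ} (C : VariableChange ℚ) (hC : C • W₁ = W₂)
    (hΔ : W₁.Δ ≠ 0) (A : ValuationSubring Qb) {m : ℕ} (hm : 0 < m) (h : UnipAt W₂ A m) :
    UnipAt W₁ A m :=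
  unipAt_of_vc C⁻¹ (by rw [← hC, inv_smul_smul]) (vc_Δ_ne_zero C hC hΔ) A hm h

end Fermat.Agent.ES12
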