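/-
Cluster E' (Mazur), S12 side, seat QUOT (helper22): the `x`-map of the Vélu isogeny is a rational
function of `x` (`VeluXRatStatement`), from Vélu's explicit formula (`VeluXFormula`).
-/
import Mathlib
import Fermat.Agent.E.S12.Quot.Spec

set_option autoImplicit false

open WeierstrassCurve WeierstrassCurve.Affine WeierstrassCurve.Affine.Point

noncomputable section

namespace Fermat.Agent.ES12

open Fermat.Agent.EV Polynomial

/-- a finite sum of fractions `n_i (x) / (x - a_i)²` is a fraction of polynomials. -/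
theorem xrat_exists_sum {ι : Type*} [DecidableEq ι] (S : Finset ι) (a : ι → Qb)
    (nQ : ι → Polynomial Qb) :
    ∃ n d : Polynomial Qb, ∀ x : Qb, (∀ i ∈ S, x ≠ a i) →
      d.eval x ≠ 0 ∧ ∑ i ∈ S, (nQ i).eval x / (x - a i) ^ 2 = n.eval x / d.eval x := by
  induction S using Finset.induction_on with
  | empty =>
    refine ⟨0, 1, fun x _ => ⟨by simp, by simp⟩⟩
  | insert i S hi ih =>
    obtain ⟨n, d, hnd⟩ := ih
    refine ⟨nQ i * d + n * (X - C (a i)) ^ 2, (X - C (a i)) ^ 2 * d, fun x hx => ?_⟩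
    have hxi : x - a i ≠ 0 := sub_ne_zero.mpr (hx i (Finset.mem_insert_self i S))
    obtain ⟨hd, hsum⟩ := hnd x fun j hj => hx j (Finset.mem_insert_of_mem hj)
    refine ⟨?_, ?_⟩
    · simp only [eval_mul, eval_pow, eval_sub, eval_X, eval_C]
      exact mul_ne_zero (pow_ne_zero 2 hxi) hd
    · rw [Finset.sum_insert hi, hsum]
      simp only [eval_mul, eval_pow, eval_sub, eval_X, eval_C, eval_add]
      field_simp

/-- two affine points with the same `x`-coordinate are equal or opposite. -/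
theorem xrat_eq_or_eq_neg {W : Affine Qb} {x y y' : Qb} (h : W.Nonsingular x y)
    (h' : W.Nonsingular x y') :
    (Point.some x y h : W.Point) = .some x y' h' ∨ (Point.some x y h : W.Point) = -.some x y' h' := by
  rcases Y_eq_of_X_eq h.1 h'.1 rfl with hy | hy
  · left
    subst hy
    rfl
  · right
    rw [Point.neg_some]
    simp only [Point.some.injEq, true_and]
    exact hy

/-- the `x`-coordinate of a point outside a subgroup differs from those of its nonzero elements. -/
theorem xrat_ptX_ne {W : Affine Qb} (N₀ : AddSubgroup W.Point) {x y : Qb}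
    (h : W.Nonsingular x y) (hP : (Point.some x y h : W.Point) ∉ N₀) {Q : W.Point}
    (hQ : Q ∈ N₀) (hQ0 : Q ≠ 0) : x ≠ ptX Q := by
  rcases Q with _ | ⟨xq, yq, hq⟩
  · exact absurd rfl hQ0
  · intro hx
    change x = xq at hx
    subst hx
    rcases xrat_eq_or_eq_neg h hq with e | e
    · exact hP (e ▸ hQ)
    · exact hP (e ▸ N₀.neg_mem hQ)

/-- **(V1x, rational form)** from Vélu's explicit `x`-formula. -/
theorem veluXRat_of
    (hXF : ∀ (W : Affine Qb), W.Δ ≠ 0 → ∀ N₀ : AddSubgroup W.Point, (N₀ : Set W.Point).Finite →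
      Odd (Nat.card N₀) → VeluXFormula W N₀) :
    VeluXRatStatement := by
  classical
  intro W hΔ N₀ hfin hodd
  have hF := hXF W hΔ N₀ hfin hodd
  have hfin' : {Q : W.Point | Q ∈ (N₀ : Set W.Point) ∧ Q ≠ 0}.Finite :=
    hfin.subset fun Q hQ => hQ.1
  obtain ⟨n, d, hnd⟩ := xrat_exists_sum hfin'.toFinset (fun Q => ptX Q)
    (fun Q => C (veluT W Q) * (X - C (ptX Q)) + C (veluU W Q))
  refine ⟨X * d + C (1 / 2) * n, d, fun x y h hP => ?_⟩
  have hne : ∀ Q ∈ hfin'.toFinset, x ≠ ptX Q := by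
    intro Q hQ
    rw [Set.Finite.mem_toFinset] at hQ
    exact xrat_ptX_ne N₀ h hP hQ.1 hQ.2
  obtain ⟨hd, hsum⟩ := hnd x hne
  refine ⟨hd, ?_⟩
  rw [hF x y h hP]
  have hfs : (∑ᶠ (Q : W.Point) (_ : Q ∈ (N₀ : Set W.Point) ∧ Q ≠ 0),
      (veluT W Q / (x - ptX Q) + veluU W Q / (x - ptX Q) ^ 2)) =
      ∑ Q ∈ hfin'.toFinset, (veluT W Q / (x - ptX Q) + veluU W Q / (x - ptX Q) ^ 2) :=
    finsum_mem_eq_finite_toFinset_sum _ hfin'
  rw [hfs]
  have hterm : ∀ Q ∈ hfin'.toFinset, veluT W Q / (x - ptX Q) + veluU W Q / (x - ptX Q) ^ 2 =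
      (C (veluT W Q) * (X - C (ptX Q)) + C (veluU W Q)).eval x / (x - ptX Q) ^ 2 := by
    intro Q hQ
    have h0 : x - ptX Q ≠ 0 := sub_ne_zero.mpr (hne Q hQ)
    simp only [eval_mul, eval_sub, eval_X, eval_C, eval_add]
    field_simp
  rw [Finset.sum_congr rfl hterm, hsum]
  simp only [eval_mul, eval_X, eval_C, eval_add]
  field_simp

end Fermat.Agent.ES12
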