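/-
Cluster E' (Mazur), S12 side, seat QUOT (helper22): `QuotStatement p` from Vélu's theorem
(`VeluStatement`) and Vélu's explicit `x`-formula (`VeluXFormula`).
-/
import Mathlib
import Fermat.Agent.E.S12.Quot
import Fermat.Agent.E.S12.Quot.XRat
import Fermat.Agent.E.S12.VeluQ
import Fermat.Agent.E.S12.AtTwoStmt

set_option autoImplicit false

open WeierstrassCurve WeierstrassCurve.Affine WeierstrassCurve.Affine.Point

noncomputable section

namespace Fermat.Agent.ES12

open Fermat.Agent.EV

/-- **(QUOT)** from Vélu's theorem and Vélu's `x`-formula. -/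
theorem quotStatement {p : ℕ} (hp : p.Prime) (hp2 : p ≠ 2) (hV : VeluStatement)
    (hXF : ∀ (W : Affine Qb), W.Δ ≠ 0 → ∀ N₀ : AddSubgroup W.Point, (N₀ : Set W.Point).Finite →
      Odd (Nat.card N₀) → VeluXFormula W N₀) :
    QuotStatement p :=
  quotStatement_of hp hp2 (veluQ hV) (atTwoStatement hV hp hp2) (veluXRat_of hXF)

end Fermat.Agent.ES12
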