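/-
Cluster E' (Mazur), S12 side, seat QUOT (helper22), part 2: LEG + TW.
A curve over `ℚ` isomorphic to `legCurve (d m) (d n)` (`(m, n)` a Frey pair, `d` squarefree), with
unipotent inertia everywhere (e.g. isogenous to a semistable curve), is isomorphic over `ℚ` to the
Frey model `freyLike m n`.
-/
import Mathlib
import Fermat.Agent.E.S12.Twist
import Fermat.Agent.E.S12.Leg
import Fermat.Agent.E.S12.Quot.Unip

set_option autoImplicit false

open WeierstrassCurve WeierstrassCurve.Affine WeierstrassCurve.Affine.Point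

noncomputable section

namespace Fermat.Agent.ES12

theorem legCurve_twist (m n d : ℚ) : legCurve (d * m) (d * n) = quadTwist (legCurve m n) d := by
  ext <;> simp [legCurve, quadTwist] <;> ring

theorem legCurve_map_intCast (m n : ℤ) :
    (legCurve m n).map (Int.castRingHom ℚ) = legCurve (m : ℚ) (n : ℚ) := by
  ext <;> simp [legCurve]

/-- unipotency for the Legendre form of a Frey pair. -/
theorem unipAt_legCurve {m n : ℤ} (h : IsFreyPair m n) {ℓ k : ℕ} (hℓ : ℓ.Prime) (hk : k.Prime)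
    (hk2 : k ≠ 2) (hℓk : ℓ ≠ k) (A : ValuationSubring Qb) (hA : A.LiesOverPrime ℓ) :
    UnipAt (legCurve (m : ℚ) (n : ℚ)) A k := by
  have h1 : UnipAt ((freyLike m n).map (Int.castRingHom ℚ)) A k :=
    unipAt_of_semistable (freyLike m n) hℓ hk hk2 hℓk (freyLike_semistable h hℓ) A hA
  have hΔ : ((freyLike m n).map (Int.castRingHom ℚ)).Δ ≠ 0 := by
    rw [WeierstrassCurve.map_Δ]
    simpa using freyLike_Δ_ne_zero h
  exact unipAt_of_vc freyLegVC (freyLegVC_smul m n h) hΔ A hk.pos h1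

/-- **(LEG + TW)**: a curve `W` over `ℚ`, `ℚ`-isomorphic to `legCurve (d m) (d n)` for a Frey pair
`(m, n)` and a squarefree `d`, with unipotent inertia on its odd prime torsion at every prime, is
`ℚ`-isomorphic to `freyLike m n`. -/
theorem leg_twist_trivial (W : WeierstrassCurve ℚ) (hΔ : W.Δ ≠ 0) (m n d : ℤ)
    (hmn : IsFreyPair m n) (hd : Squarefree d) (C : VariableChange ℚ)
    (hC : C • W = legCurve ((d * m : ℤ) : ℚ) ((d * n : ℤ) : ℚ)) (p : ℕ)
    (hunip : ∀ ℓ k : ℕ, ℓ.Prime → k.Prime → k ≠ 2 → ℓ ≠ k → k ≠ p →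
      ∃ A : ValuationSubring Qb, A.LiesOverPrime ℓ ∧ UnipAt W A k) :
    d = 1 ∧ (freyLegVC⁻¹ * C) • W = (freyLike m n).map (Int.castRingHom ℚ) := by
  have hC' : C • W = quadTwist (legCurve (m : ℚ) (n : ℚ)) (d : ℚ) := by
    rw [hC, ← legCurve_twist]
    push_cast
    rfl
  have hΔF : ((freyLike m n).map (Int.castRingHom ℚ)).Δ ≠ 0 := by
    rw [WeierstrassCurve.map_Δ]
    simpa using freyLike_Δ_ne_zero hmn
  have hΔL : (legCurve (m : ℚ) (n : ℚ)).Δ ≠ 0 :=
    vc_Δ_ne_zero freyLegVC (freyLegVC_smul m n hmn) hΔF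
  have hd1 : d = 1 := by
    refine quadTwist_trivial (legCurve (m : ℚ) (n : ℚ)) rfl rfl hΔL d hd fun ℓ hℓ => ?_
    obtain ⟨k, hk, hk2, hℓk, hkp⟩ := exists_odd_prime_ne ℓ p
    obtain ⟨A, hA, hW⟩ := hunip ℓ k hℓ hk hk2 hℓk hkp
    refine ⟨A, hA, k, hk.odd_of_ne_two hk2, hk.one_lt, unipAt_legCurve hmn hℓ hk hk2 hℓk A hA, ?_⟩
    exact unipAt_of_vc C hC' hΔ A hk.pos hW
  refine ⟨hd1, ?_⟩
  refine freyLike_of_leg W m n hmn C ?_
  rw [hC, hd1]
  simp

end Fermat.Agent.ES12
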